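import Mathlib
import Fermat.Agent.LT.T7.H514.FactUpQSpec

/-!
# Row LT, tower T7, leaf Q2.7.13.2 `FUQ514.LocEqInertQC514` (cut of helper514, registry row 2709)

OFF-MAIN.  `locEqInertQC757 F : FUQ514.LocEqInertQC514 F` VERBATIM, for every number field `F`.
Spec: `T7/H514/FactUpQSpec.lean` (helper514@c4d7f196f, sha256 01844c0a365a9314).

Proof = the proof of the cubic leaf `H340.LocEqInertC340` by helper555
(`T7/H555/LocEqInert.lean`), ported to `K = ℚ`, `K' = F`, with `LocHypQ298.inert` in place of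
`LocHyp305.inert`.  `T6.InstLocalC`: `ℚ_v`, `F_w` are local fields; `T6.InstExtC` for a generator
of the Galois group gives the residue field of `F_w` (`N w = N v ^ (l / e₀)`), and `e₀` is the `e`
of the given local extension datum (both are the valuation of the image of a uniformiser of
`ℚ`).  `T6.OrbSumExC` gives orbit sums upstairs (twisted) and downstairs (`k' = k`,
`l = e = 1`), `T6.OrbSumIntC` identifies them with the two integrals, and `LocHypQ298.inert`
says that they agree (`N δ_w = i(γ_v)`).  Neither `D.l = 2` nor `IsImagQuad F` is used.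

SELF-CONTAINED: imports the Spec only.  The auxiliary statements are stated for a general
extension `K'/K` (names with the suffix `757`).  NO equation lemma of a foreign definition is
realised here (foreign definitions are opened by definitional unfolding only).
-/

set_option autoImplicit false
set_option linter.style.haveILetI false
set_option linter.unusedSectionVars false

open AutomorphicForm IsDedekindDomain NumberField MeasureTheory
open scoped ComplexConjugate

noncomputable section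

namespace Fermat.Agent.LT.T7.H757

open Fermat.Agent.LT.H556 Fermat.Agent.LT.H556.A0 Fermat.Agent.LT Fermat.Agent.LT.T7
open Fermat.Agent.LT.T7.H305 Fermat.Agent.LT.T7.H340 Fermat.Agent.LT.T7.MQ298
open Fermat.Agent.LT.T7.FUQ514

/-! ## 1. Algebra of `GL₂` under ring homomorphisms -/

theorem disc_map757 {R S : Type} [CommRing R] [CommRing S] (f : R →+* S) (γ : GL (Fin 2) R) :
    T6.disc (Matrix.GeneralLinearGroup.map f γ) = f (T6.disc γ) := by
  show ((γ : Matrix (Fin 2) (Fin 2) R).map f).trace ^ 2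
      - 4 * ((γ : Matrix (Fin 2) (Fin 2) R).map f).det
    = f ((γ : Matrix (Fin 2) (Fin 2) R).trace ^ 2 - 4 * (γ : Matrix (Fin 2) (Fin 2) R).det)
  simp [Matrix.trace_fin_two, Matrix.det_fin_two, map_ofNat]

theorem isReg_map757 {R S : Type} [CommRing R] [CommRing S] (f : R →+* S) {γ : GL (Fin 2) R}
    (h : T6.IsReg γ) : T6.IsReg (Matrix.GeneralLinearGroup.map f γ) := by
  have h0 : IsUnit (T6.disc γ) := h
  show IsUnit (T6.disc (Matrix.GeneralLinearGroup.map f γ))
  rw [disc_map757]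
  exact h0.map f

theorem glAut_refl757 {R : Type} [CommRing R] (x : GL (Fin 2) R) :
    T6.glAut (RingEquiv.refl R) x = x := by
  apply Matrix.GeneralLinearGroup.ext
  intro a b
  rfl

theorem twNorm_one757 {R : Type} [CommRing R] (s : R ≃+* R) (δ : GL (Fin 2) R) :
    T6.twNorm s 1 δ = δ := by
  show δ * T6.glAut s 1 = δ
  rw [map_one, mul_one]

theorem isLocalExt_refl757 (k : Type) [Field k] [Valued k T6.Γ₀] :
    T6.IsLocalExt k k 1 1 (RingHom.id k) (RingEquiv.refl k) where
  cyc :=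
    { pos := Nat.one_pos
      fix_i := fun _ => rfl
      fixed := fun y _ => ⟨y, rfl⟩
      order := fun y => by simp
      faithful := fun m h1 h2 => by omega }
  e_pos := Nat.one_pos
  val_i := fun x => by simp
  val_s := fun _ => rfl

theorem locInt_refl757 {k : Type} [Field k] [Valued k T6.Γ₀]
    (μ : @Measure (GL (Fin 2) k) (borel _)) (β : GL (Fin 2) k → ℝ) (f : GL (Fin 2) k → ℂ)
    (γ : GL (Fin 2) k) :
    locTwInt340 (RingEquiv.refl k) μ β f γ = locInt305 μ β f γ := by
  show @integral _ _ _ _ (borel _) μ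
      (fun x : GL (Fin 2) k => f (x⁻¹ * γ * T6.glAut (RingEquiv.refl k) x) * ((β x : ℝ) : ℂ))
    = @integral _ _ _ _ (borel _) μ (fun y : GL (Fin 2) k => f (y⁻¹ * γ * y) * ((β y : ℝ) : ℂ))
  simp only [glAut_refl757]

section TwoFields

variable {K K' : Type} [Field K] [NumberField K] [Field K'] [NumberField K'] [Algebra K K']

theorem locG_onRat757 (s : T5.AdelicAut K') (w : HeightOneSpectrum (𝓞 K'))
    (sw : w.adicCompletion K' ≃+* w.adicCompletion K')
    (hsw : ∀ y : K', sw (algebraMap K' (w.adicCompletion K') y)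
      = algebraMap K' (w.adicCompletion K') (s.σ y)) (x : GL (Fin 2) K') :
    locG305 w (s.onRat x) = T6.glAut sw (locG305 w x) := by
  apply Matrix.GeneralLinearGroup.ext
  intro a b
  exact (hsw _).symm

theorem locG_normUpTo757 (s : T5.AdelicAut K') (w : HeightOneSpectrum (𝓞 K'))
    (sw : w.adicCompletion K' ≃+* w.adicCompletion K')
    (hsw : ∀ y : K', sw (algebraMap K' (w.adicCompletion K') y)
      = algebraMap K' (w.adicCompletion K') (s.σ y)) (l : ℕ) (δ : GL (Fin 2) K') :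
    locG305 w (s.normUpTo l δ) = T6.twNorm sw l (locG305 w δ) := by
  induction l with
  | zero =>
    show locG305 w 1 = 1
    exact map_one _
  | succ n ih =>
    show locG305 w (δ * s.onRat (s.normUpTo n δ))
      = locG305 w δ * T6.glAut sw (T6.twNorm sw n (locG305 w δ))
    rw [map_mul, locG_onRat757 s w sw hsw, ih]

theorem locG_base757 (v : HeightOneSpectrum (𝓞 K)) (w : HeightOneSpectrum (𝓞 K'))
    (i : v.adicCompletion K →+* w.adicCompletion K')
    (hi : ∀ x : K, i (algebraMap K (v.adicCompletion K) x)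
      = algebraMap K' (w.adicCompletion K') (algebraMap K K' x)) (γ : GL (Fin 2) K) :
    locG305 w (Matrix.GeneralLinearGroup.map (algebraMap K K') γ)
      = Matrix.GeneralLinearGroup.map i (locG305 v γ) := by
  apply Matrix.GeneralLinearGroup.ext
  intro a b
  exact (hi _).symm

/-- The ramification index of a local embedding is determined by its restriction to `K`. -/
theorem ramIdx_unique757 (v : HeightOneSpectrum (𝓞 K)) (w : HeightOneSpectrum (𝓞 K'))
    (e e₀ : ℕ) (i i₀ : v.adicCompletion K →+* w.adicCompletion K')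
    (hi : ∀ x : K, i (algebraMap K (v.adicCompletion K) x)
      = algebraMap K' (w.adicCompletion K') (algebraMap K K' x))
    (hi₀ : ∀ x : K, i₀ (algebraMap K (v.adicCompletion K) x)
      = algebraMap K' (w.adicCompletion K') (algebraMap K K' x))
    (hv : ∀ x : v.adicCompletion K, Valued.v (i x) = Valued.v x ^ e)
    (hv₀ : ∀ x : v.adicCompletion K, Valued.v (i₀ x) = Valued.v x ^ e₀) : e = e₀ := by
  obtain ⟨π, hπ⟩ := v.valuation_exists_uniformizer K
  have h1 := hv (algebraMap K _ π)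
  have h2 := hv₀ (algebraMap K _ π)
  rw [hi] at h1
  rw [hi₀] at h2
  have h3 : Valued.v (algebraMap K (v.adicCompletion K) π) = WithZero.exp (-1 : ℤ) := by
    rw [← hπ]
    exact v.valuedAdicCompletion_eq_valuation' π
  rw [h3] at h1 h2
  have h4 : WithZero.exp (-1 : ℤ) ^ e = WithZero.exp (-1 : ℤ) ^ e₀ := h1.symm.trans h2
  rw [← WithZero.exp_nsmul, ← WithZero.exp_nsmul, WithZero.exp_inj] at h4
  have h5 : (e : ℤ) * (-1) = (e₀ : ℤ) * (-1) := by simpa using h4
  omega

theorem exists_gen757 (l : ℕ) (h : IsCycExt K K' l) :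
    ∃ s : K' ≃ₐ[K] K', ∀ t : K' ≃ₐ[K] K', t ∈ Subgroup.zpowers s := by
  haveI := h.galois
  haveI : Fact l.Prime := ⟨h.prime⟩
  have hcard : Nat.card (K' ≃ₐ[K] K') = l := by
    rw [IsGalois.card_aut_eq_finrank, h.degree]
  haveI : IsCyclic (K' ≃ₐ[K] K') := isCyclic_of_prime_card hcard
  exact IsCyclic.exists_generator

theorem coe_algebraMap757 (x : 𝓞 K) :
    ((algebraMap (𝓞 K) (𝓞 K') x : 𝓞 K') : K') = algebraMap K K' (x : K) := rfl

theorem placeOver_iff757 {v : HeightOneSpectrum (𝓞 K)} {w : HeightOneSpectrum (𝓞 K')}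
    (h : PlaceOver K K' v w) (x : 𝓞 K) :
    x ∈ v.asIdeal ↔ algebraMap (𝓞 K) (𝓞 K') x ∈ w.asIdeal :=
  h x _ (coe_algebraMap757 x)

theorem placeOver_of_le757 {v : HeightOneSpectrum (𝓞 K)} {w : HeightOneSpectrum (𝓞 K')}
    (h : ∀ x : 𝓞 K, x ∈ v.asIdeal → algebraMap (𝓞 K) (𝓞 K') x ∈ w.asIdeal) :
    PlaceOver K K' v w := by
  intro x y hxy
  have hy : y = algebraMap (𝓞 K) (𝓞 K') x := by
    exact RingOfIntegers.ext (hxy.trans (coe_algebraMap757 x).symm)
  subst hy
  refine ⟨h x, fun hx => ?_⟩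
  by_contra hxv
  haveI : v.asIdeal.IsMaximal := v.isMaximal
  obtain ⟨a, b, hb, hab⟩ := Ideal.IsMaximal.exists_inv (I := v.asIdeal) inferInstance hxv
  have h1 : algebraMap (𝓞 K) (𝓞 K') (a * x + b) ∈ w.asIdeal := by
    rw [map_add, map_mul]
    exact w.asIdeal.add_mem (w.asIdeal.mul_mem_left _ hx) (h b hb)
  rw [hab, map_one] at h1
  exact w.isPrime.ne_top ((Ideal.eq_top_iff_one _).mpr h1)

end TwoFields

/-! ## 2. The leaf -/

/-- **LEAF Q2.7.13.2 = LOC-EQ-INERT over `ℚ`**, VERBATIM. -/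
theorem locEqInertQC757 (F : Type) [Field F] [NumberField F] : LocEqInertQC514 F := by
  intro hT6 _hIQ D _hD hcyc _hl2 μr μc S n m φ₀ Φ f₀ F0 F1 hLoc δ γ hEll hN L hL v hv J hJ
  obtain ⟨_, _, _, _, _, hInstLoc, hInstExt, _, hEx, _, hInt, _⟩ := hT6
  obtain ⟨w, e, i, sw, μ', μt', β', hvw, huniq, hi, hsw, hext, hμ', hμt', hβ', rfl⟩ := hJ
  obtain ⟨hμ'1, hμ'2⟩ := hμ'
  obtain ⟨hμt'1, hμt'2⟩ := hμt'
  obtain ⟨hβ'1, hβ'2, hβ'3⟩ := hβ'
  obtain ⟨hμ1, hμ2⟩ := hL.haar v
  obtain ⟨hμt1, hμt2⟩ := hL.tor v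
  obtain ⟨hβ1, hβ2, hβ3⟩ := hL.cut v
  obtain ⟨hup1, hup2⟩ := hLoc.inv_up v hv w hvw
  obtain ⟨hdn1, hdn2⟩ := hLoc.inv_down v hv
  -- regularity
  have hregγ : T6.IsReg (locG305 v γ) := isReg_map757 _ hEll.1
  have hnorm : T6.twNorm sw D.l (locG305 w δ)
      = Matrix.GeneralLinearGroup.map i (locG305 v γ) := by
    rw [← locG_normUpTo757 D.s w sw hsw, hN, locG_base757 v w i hi]
  have hregδ : T6.IsReg (T6.twNorm sw D.l (locG305 w δ)) := by
    rw [hnorm]
    exact isReg_map757 _ hregγ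
  -- the local fields
  have hkv := hInstLoc ℚ v
  have hkw := hInstLoc F w
  have hkw' : T6.IsLocalField (w.adicCompletion F)
      (Ideal.absNorm v.asIdeal ^ (D.l / e)) := by
    haveI := hcyc.galois
    obtain ⟨s, hs⟩ := exists_gen757 D.l hcyc
    obtain ⟨e₀, i₀, sw₀, hi₀, _, hext₀, hN₀⟩ :=
      hInstExt ℚ F s hs (hcyc.degree ▸ hcyc.prime) v w (placeOver_iff757 hvw)
        (fun w' hw' => huniq w' (placeOver_of_le757 hw'))
    have he : e = e₀ := ramIdx_unique757 v w e e₀ i i₀ hi hi₀ hext.val_i hext₀.val_i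
    rw [he, ← hcyc.degree, ← hN₀]
    exact hkw
  -- orbit sums
  obtain ⟨c, hc⟩ := hEx (v.adicCompletion ℚ) (w.adicCompletion F) (Ideal.absNorm v.asIdeal)
    D.l e i sw hkv hkw' hext (n w) (φ₀ w) hup1 hup2 (locG305 w δ) hregδ
  have hkv1 : T6.IsLocalField (v.adicCompletion ℚ) (Ideal.absNorm v.asIdeal ^ (1 / 1)) := by
    have : Ideal.absNorm v.asIdeal ^ (1 / 1) = Ideal.absNorm v.asIdeal := by norm_num
    rw [this]
    exact hkv
  have hregγ1 : T6.IsReg (T6.twNorm (RingEquiv.refl (v.adicCompletion ℚ)) 1 (locG305 v γ)) := by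
    rw [twNorm_one757]
    exact hregγ
  obtain ⟨c', hc'⟩ := hEx (v.adicCompletion ℚ) (v.adicCompletion ℚ) (Ideal.absNorm v.asIdeal)
    1 1 (RingHom.id _) (RingEquiv.refl _) hkv hkv1 (isLocalExt_refl757 _) (m v) (f₀ v) hdn1 hdn2
    (locG305 v γ) hregγ1
  -- the integrals
  have hJc : locTwInt340 sw μ' β' (φ₀ w) (locG305 w δ) = c :=
    hInt (w.adicCompletion F) (Ideal.absNorm w.asIdeal) D.l sw hkw hext.val_s hext.cyc.pos
      hext.cyc.order (n w) (φ₀ w) hup1 hup2 (locG305 w δ) c hregδ hc μ' hμ'1 hμ'2 μt' hμt'1 hμt'2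
      β' hβ'1 hβ'2 hβ'3
  have hIc : locInt305 (L.μv v) (L.βv v) (f₀ v) (locG305 v γ) = c' := by
    have h := hInt (v.adicCompletion ℚ) (Ideal.absNorm v.asIdeal) 1 (RingEquiv.refl _) hkv
      (fun _ => rfl) Nat.one_pos (fun y => by simp) (m v) (f₀ v) hdn1 hdn2 (locG305 v γ) c'
      hregγ1 hc' (L.μv v) hμ1 hμ2 (L.μt v) hμt1 hμt2 (L.βv v) hβ1 hβ2 hβ3
    rw [← h]
    exact (locInt_refl757 _ _ _ _).symm
  -- matching
  have hcc' : c = c' :=
    (hLoc.inert v hv w hvw huniq e i sw hi hsw hext).1 (locG305 w δ) (locG305 v γ) c c' hregγ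
      (hnorm ▸ IsConj.refl _) hc hc'
  rw [hJc, hIc, hcc']

/-- Example check: the statement is the frozen Prop of the Spec, verbatim. -/
example (F : Type) [Field F] [NumberField F] : FUQ514.LocEqInertQC514 F := locEqInertQC757 F

end Fermat.Agent.LT.T7.H757

end
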