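import Mathlib
import Fermat.Agent.LT.T7.H514.FactUpQCore
import Fermat.Agent.LT.T7.H757.LocEqInertQ

/-!
# Row LT, tower T7, leaf Q2.7.13.2c `FUQ514.LocEqInertQL514` (CORE FORM of helper514, row 2676)

OFF-MAIN.  `locEqInertQL757 F : FUQ514.LocEqInertQL514 F` VERBATIM, for every number field `F`.
Spec: `T7/H514/FactUpQCore.lean` (helper514@311c23de3, sha256 1d26ea9e16687419).

The LOCAL FORM of the leaf `LocEqInertQC514` (`LocEqInertQ.lean`, same proof): the inert clause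
at the place `v` and the invariance of the components at `v` are hypotheses; no structure of
local hypotheses is mentioned.  Auxiliary statements: `LocEqInertQ.lean` (suffix `757`).
NO equation lemma of a foreign definition is realised here.
-/

set_option autoImplicit false
set_option linter.style.haveILetI false

open AutomorphicForm IsDedekindDomain NumberField MeasureTheory
open scoped ComplexConjugate

noncomputable section

namespace Fermat.Agent.LT.T7.H757

open Fermat.Agent.LT.H556 Fermat.Agent.LT.H556.A0 Fermat.Agent.LT Fermat.Agent.LT.T7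
open Fermat.Agent.LT.T7.H305 Fermat.Agent.LT.T7.H340 Fermat.Agent.LT.T7.MQ298
open Fermat.Agent.LT.T7.FUQ514

/-- **LEAF Q2.7.13.2c = LOC-EQ-INERT over `ℚ`, LOCAL FORM**, VERBATIM. -/
theorem locEqInertQL757 (F : Type) [Field F] [NumberField F] : LocEqInertQL514 F := by
  intro hT6 _hIQ D _hD hcyc _hl2 n m φ₀ f₀ δ γ hEll hN L hL v hdn hup hcl J hJ
  obtain ⟨_, _, _, _, _, hInstLoc, hInstExt, _, hEx, _, hInt, _⟩ := hT6
  obtain ⟨w, e, i, sw, μ', μt', β', hvw, huniq, hi, hsw, hext, hμ', hμt', hβ', rfl⟩ := hJ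
  obtain ⟨hμ'1, hμ'2⟩ := hμ'
  obtain ⟨hμt'1, hμt'2⟩ := hμt'
  obtain ⟨hβ'1, hβ'2, hβ'3⟩ := hβ'
  obtain ⟨hμ1, hμ2⟩ := hL.haar v
  obtain ⟨hμt1, hμt2⟩ := hL.tor v
  obtain ⟨hβ1, hβ2, hβ3⟩ := hL.cut v
  obtain ⟨hup1, hup2⟩ := hup w hvw
  obtain ⟨hdn1, hdn2⟩ := hdn
  -- regularity
  have hregγ : T6.IsReg (locG305 v γ) := isReg_map757 _ hEll.1
  have hnorm : T6.twNorm sw D.l (locG305 w δ)
      = Matrix.GeneralLinearGroup.map i (locG305 v γ) := by
    rw [← locG_normUpTo757 D.s w sw hsw, hN, locG_base757 v w i hi]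
  have hregδ : T6.IsReg (T6.twNorm sw D.l (locG305 w δ)) := by
    rw [hnorm]
    exact isReg_map757 _ hregγ
  -- the local fields
  have hkv := hInstLoc ℚ v
  have hkw := hInstLoc F w
  have hkw' : T6.IsLocalField (w.adicCompletion F)
      (Ideal.absNorm v.asIdeal ^ (D.l / e)) := by
    haveI := hcyc.galois
    obtain ⟨s, hs⟩ := exists_gen757 D.l hcyc
    obtain ⟨e₀, i₀, sw₀, hi₀, _, hext₀, hN₀⟩ :=
      hInstExt ℚ F s hs (hcyc.degree ▸ hcyc.prime) v w (placeOver_iff757 hvw)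
        (fun w' hw' => huniq w' (placeOver_of_le757 hw'))
    have he : e = e₀ := ramIdx_unique757 v w e e₀ i i₀ hi hi₀ hext.val_i hext₀.val_i
    rw [he, ← hcyc.degree, ← hN₀]
    exact hkw
  -- orbit sums
  obtain ⟨c, hc⟩ := hEx (v.adicCompletion ℚ) (w.adicCompletion F) (Ideal.absNorm v.asIdeal)
    D.l e i sw hkv hkw' hext (n w) (φ₀ w) hup1 hup2 (locG305 w δ) hregδ
  have hkv1 : T6.IsLocalField (v.adicCompletion ℚ) (Ideal.absNorm v.asIdeal ^ (1 / 1)) := by
    have : Ideal.absNorm v.asIdeal ^ (1 / 1) = Ideal.absNorm v.asIdeal := by norm_num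
    rw [this]
    exact hkv
  have hregγ1 : T6.IsReg (T6.twNorm (RingEquiv.refl (v.adicCompletion ℚ)) 1 (locG305 v γ)) := by
    rw [twNorm_one757]
    exact hregγ
  obtain ⟨c', hc'⟩ := hEx (v.adicCompletion ℚ) (v.adicCompletion ℚ) (Ideal.absNorm v.asIdeal)
    1 1 (RingHom.id _) (RingEquiv.refl _) hkv hkv1 (isLocalExt_refl757 _) (m v) (f₀ v) hdn1 hdn2
    (locG305 v γ) hregγ1
  -- the integrals
  have hJc : locTwInt340 sw μ' β' (φ₀ w) (locG305 w δ) = c :=
    hInt (w.adicCompletion F) (Ideal.absNorm w.asIdeal) D.l sw hkw hext.val_s hext.cyc.pos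
      hext.cyc.order (n w) (φ₀ w) hup1 hup2 (locG305 w δ) c hregδ hc μ' hμ'1 hμ'2 μt' hμt'1 hμt'2
      β' hβ'1 hβ'2 hβ'3
  have hIc : locInt305 (L.μv v) (L.βv v) (f₀ v) (locG305 v γ) = c' := by
    have h := hInt (v.adicCompletion ℚ) (Ideal.absNorm v.asIdeal) 1 (RingEquiv.refl _) hkv
      (fun _ => rfl) Nat.one_pos (fun y => by simp) (m v) (f₀ v) hdn1 hdn2 (locG305 v γ) c'
      hregγ1 hc' (L.μv v) hμ1 hμ2 (L.μt v) hμt1 hμt2 (L.βv v) hβ1 hβ2 hβ3
    rw [← h]
    exact (locInt_refl757 _ _ _ _).symm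
  -- matching
  have hcc' : c = c' :=
    (hcl w hvw huniq e i sw hi hsw hext).1 (locG305 w δ) (locG305 v γ) c c' hregγ
      (hnorm ▸ IsConj.refl _) hc hc'
  rw [hJc, hIc, hcc']

/-- Example check: the statement is the frozen Prop of the Spec, verbatim. -/
example (F : Type) [Field F] [NumberField F] : FUQ514.LocEqInertQL514 F := locEqInertQL757 F

end Fermat.Agent.LT.T7.H757

end
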